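import Fermat.Agent.KeislerShelah.Iteration
import Mathlib.ModelTheory.Semantics
import Mathlib.ModelTheory.Encoding
import Mathlib.Data.Fintype.Order

/-!
# One step of the back and forth

A state is a set of pairs of elements of the two powers, a filter base and a set of used functions.
The pairs satisfy the same formulas on sets in the filter, or on sets whose complements are in
it.  A new element on one side gets a partner by meeting the Skolem functions with a fresh member
of the family.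
-/

set_option autoImplicit false

universe u v w z

namespace FA.KeislerShelah

open Set Cardinal FirstOrder FirstOrder.Language

variable {L : Language.{u, v}} {A B : Type w} [L.Structure A] [L.Structure B]
  {J I V : Type z}

/-- A state. -/
abbrev State (J I V : Type z) : Type z :=
  Set ((I → V) × (I → V)) × Set (Set I) × Set J

/-- Where a formula holds, elements being given by decoded functions. -/
def sat (d : V → A) {α : Type*} (φ : L.Formula α) (c : α → I → V) : Set I :=
  {i | φ.Realize fun x => d (c x i)}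

theorem sat_not (d : V → A) {α : Type*} (φ : L.Formula α) (c : α → I → V) :
    sat d φ.not c = (sat d φ c)ᶜ := by
  ext i
  simp [sat]

theorem sat_relabel (d : V → A) {α β : Type*} (φ : L.Formula α) (g : α → β) (c : β → I → V) :
    sat d (φ.relabel g) c = sat d φ (c ∘ g) := by
  ext i
  simp [sat, Function.comp_def]

theorem sat_iInf (d : V → A) {α ι : Type*} [Finite ι] (φ : ι → L.Formula α) (c : α → I → V) :
    sat d (Formula.iInf φ) c = ⋂ x, sat d (φ x) c := by
  ext i
  simp [sat]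

/-- Two sets are both in the filter or both outside in the strong sense. -/
def BothOrNeither (D : Set (Set I)) (X Y : Set I) : Prop :=
  (Holds D X ∧ Holds D Y) ∨ (Holds D Xᶜ ∧ Holds D Yᶜ)

theorem BothOrNeither.mono {D D' : Set (Set I)} {X Y : Set I} (h : BothOrNeither D X Y)
    (hD : D ⊆ D') : BothOrNeither D' X Y :=
  h.imp (fun h => ⟨h.1.mono hD subset_rfl, h.2.mono hD subset_rfl⟩)
    fun h => ⟨h.1.mono hD subset_rfl, h.2.mono hD subset_rfl⟩

theorem BothOrNeither.swap {D : Set (Set I)} {X Y : Set I} (h : BothOrNeither D X Y) :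
    BothOrNeither D Y X :=
  h.imp And.symm And.symm

variable (L) in
/-- The pairs satisfy the same formulas in the filter, which decides all of them. -/
def Agree (dA : V → A) (dB : V → B) (P : Set ((I → V) × (I → V))) (D : Set (Set I)) : Prop :=
  ∀ (n : ℕ) (φ : L.Formula (Fin n)) (p : Fin n → (I → V) × (I → V)), (∀ j, p j ∈ P) →
    BothOrNeither D (sat dA φ fun j => (p j).1) (sat dB φ fun j => (p j).2)

variable (L) in
/-- The invariant of the construction. -/
def Good (f : J → I → V) (κ : Cardinal.{z}) (dA : V → A) (dB : V → B)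
    (S : State J I V) : Prop :=
  Consistent f κ S.2.2 S.2.1 ∧ Agree L dA dB S.1 S.2.1

variable {f : J → I → V} {κ : Cardinal.{z}} {dA : V → A} {dB : V → B}

theorem good_unionState (ι : Type z) [Nonempty ι] (S : ι → State J I V)
    (hdir : Directed (· ≤ ·) S) (h : ∀ x, Good L f κ dA dB (S x)) :
    Good L f κ dA dB (unionState S) := by
  classical
  refine ⟨fun F hF hFf T hT hdis => ?_, fun n φ p hp => ?_⟩
  · choose x hx using fun X : F => mem_iUnion.1 (hF X.2)
    have : Finite F := hFf.to_subtype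
    obtain ⟨z, hz⟩ := hdir.finite_le x
    exact (h z).1 F (fun X hX => (hz ⟨X, hX⟩).2.1 (hx ⟨X, hX⟩)) hFf T hT
      (hdis.mono_right (le_unionState S z).2.2)
  · choose x hx using fun j => mem_iUnion.1 (hp j)
    obtain ⟨z, hz⟩ := hdir.finite_le x
    exact ((h z).2 n φ p fun j => (hz j).1 (hx j)).mono (le_unionState S z).2.1

theorem Good.swap {S : State J I V} (h : Good L f κ dA dB S) :
    Good L f κ dB dA (Prod.swap '' S.1, S.2) := by
  refine ⟨h.1, fun n φ p hp => ?_⟩
  refine (h.2 n φ (fun j => (p j).swap) fun j => ?_).swap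
  obtain ⟨q, hq, hqp⟩ := hp j
  rw [← hqp, Prod.swap_swap]
  exact hq

/-- Deciding one set. -/
theorem exists_decide_state (hκ : ℵ₀ ≤ κ) {S : State J I V} {c : Cardinal.{z}}
    (hc : κ ≤ c) (hS : Good L f κ dA dB S) (hSc : SizeLE S c) (X : Set I) :
    ∃ S', S ≤ S' ∧ S'.1 = S.1 ∧ Good L f κ dA dB S' ∧ SizeLE S' c ∧
      (Holds S'.2.1 X ∨ Holds S'.2.1 Xᶜ) := by
  obtain ⟨R, hR, h⟩ := exists_decide hκ hS.1 X
  have hc' : ℵ₀ ≤ c := hκ.trans hc
  have key : ∀ Y, Consistent f κ (S.2.2 ∪ R) (insert Y S.2.1) →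
      S ≤ (S.1, insert Y S.2.1, S.2.2 ∪ R) ∧ Good L f κ dA dB (S.1, insert Y S.2.1, S.2.2 ∪ R) ∧
        SizeLE (S.1, insert Y S.2.1, S.2.2 ∪ R) c := fun Y hY =>
    ⟨⟨le_rfl, subset_insert _ _, subset_union_left⟩,
      ⟨hY, fun n φ p hp => (hS.2 n φ p hp).mono (subset_insert _ _)⟩,
      hSc.1, Cardinal.mk_insert_le.trans
        ((add_le_add hSc.2.1 (one_lt_aleph0.le.trans hc')).trans (add_eq_self hc').le),
      mk_union_le hc' hSc.2.2 (hR.trans hc)⟩
  rcases h with h | h
  · exact ⟨_, (key X h).1, rfl, (key X h).2.1, (key X h).2.2, .inl (holds_of_mem (mem_insert _ _))⟩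
  · exact ⟨_, (key _ h).1, rfl, (key _ h).2.1, (key _ h).2.2, .inr (holds_of_mem (mem_insert _ _))⟩

/-- Deciding a small family of sets. -/
theorem exists_decide_family (hκ : ℵ₀ ≤ κ) {S : State J I V} {c : Cardinal.{z}}
    (hc : κ ≤ c) (hS : Good L f κ dA dB S) (hSc : SizeLE S c) {Ξ : Type z}
    (hΞ : #Ξ ≤ c) (X : Ξ → Set I) :
    ∃ S', S ≤ S' ∧ S'.1 = S.1 ∧ Good L f κ dA dB S' ∧ SizeLE S' c ∧
      ∀ x, Holds S'.2.1 (X x) ∨ Holds S'.2.1 (X x)ᶜ := by
  classical
  let : LinearOrder Ξ := linearOrderOfSTO WellOrderingRel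
  have : WellFoundedLT Ξ := ⟨(WellOrderingRel.isWellOrder (α := Ξ)).wf⟩
  obtain ⟨S', hle, ⟨hg, hP⟩, hsize, hdone⟩ := exists_iterate
    (Good := fun T : State J I V => Good L f κ dA dB T ∧ T.1 = S.1)
    (fun ι _ T hd hT => ⟨good_unionState ι T hd fun x => (hT x).1,
      (iUnion_congr fun x => (hT x).2).trans (iUnion_const _)⟩)
    (hκ.trans hc) (fun x T => Holds T.2.1 (X x) ∨ Holds T.2.1 (X x)ᶜ)
    (fun x T T' hTT h => h.imp (·.mono hTT.2.1 subset_rfl) (·.mono hTT.2.1 subset_rfl))
    ⟨hS, rfl⟩ hSc fun x T hT hTc => by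
      obtain ⟨T', h1, h2, h3, h4, h5⟩ :=
        exists_decide_state hκ (hc.trans (le_max_left _ _)) hT.1 hTc (X x)
      exact ⟨T', h1, ⟨h3, h2.trans hT.2⟩, h4, h5⟩
  exact ⟨S', hle, hP, hg, hsize.mono (max_le le_rfl hΞ), hdone⟩

/-- **Finding a partner.** -/
theorem exists_partner {J I V : Type (max u v w)} [Nonempty V] {f : J → I → V}
    {κ : Cardinal.{max u v w}} {dA : V → A} {dB : V → B}
    (hκ : ℵ₀ ≤ κ) (hV : #V ≤ κ) (hdB : Function.Surjective dB)
    {c : Cardinal.{max u v w}} (hc : κ ≤ c)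
    (hL : ∀ n, Cardinal.lift.{max u v w} #(L.Formula (Fin n ⊕ Unit)) ≤ c) (hJ : c < #J)
    {S : State J I V} (hS : Good L f κ dA dB S) (hSc : SizeLE S c) (a : I → V) :
    ∃ S', S ≤ S' ∧ Good L f κ dA dB S' ∧ SizeLE S' c ∧ ∃ b, (a, b) ∈ S'.1 := by
  classical
  have hc' : ℵ₀ ≤ c := hκ.trans hc
  let Ξ := Σ n : ℕ, L.Formula (Fin n ⊕ Unit) × (Fin n → ↥S.1)
  have hΞ : #Ξ ≤ c := by
    rw [mk_sigma]
    refine (sum_le_lift_mk_mul_iSup _).trans ?_
    rw [mk_nat, lift_aleph0]
    refine (mul_le_mul' hc' (ciSup_le' fun n => ?_)).trans (mul_eq_self hc').le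
    rw [mk_prod, mk_arrow, mk_fin]
    refine (mul_le_mul' ?_ ?_).trans (mul_eq_self hc').le
    · simpa using hL n
    · simp only [lift_natCast, lift_id']
      rw [lift_id'.{max u v, max u v w}]
      exact (power_le_power_right hSc.1).trans (power_nat_le hc')
  let satA : Ξ → Set I := fun x => sat dA x.2.1 (Sum.elim (fun j => (x.2.2 j).1.1) fun _ => a)
  obtain ⟨S₁, hle₁, hP₁, hg₁, hc₁, hdec⟩ := exists_decide_family hκ hc hS hSc hΞ satA
  -- Skolem functions for the other side
  let g : Ξ → I → V := fun x i =>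
    if h : ∃ v : V, x.2.1.Realize (Sum.elim (fun j => dB ((x.2.2 j).1.2 i)) fun _ => dB v) then
      h.choose
    else Classical.arbitrary V
  choose R hR hmeet using fun q : Ξ × Finset ↥S₁.2.1 =>
    exists_meet hκ hV hg₁.1 (g q.1) (S := Subtype.val '' (q.2 : Set ↥S₁.2.1))
      (fun X ⟨Y, _, hY⟩ => hY ▸ Y.2) ((Finset.finite_toSet _).image _)
  have hpairs : #(Ξ × Finset ↥S₁.2.1) ≤ c := by
    rw [← mul_def]
    refine (mul_le_mul' hΞ ?_).trans (mul_eq_self hc').le
    exact (mk_le_of_injective (fun x y h => by simpa using congrArg List.toFinset h :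
      Function.Injective (Finset.toList : Finset ↥S₁.2.1 → List ↥S₁.2.1))).trans
      ((mk_list_le_max _).trans (max_le hc' hc₁.2.1))
  let R₁ := S₁.2.2 ∪ ⋃ q, R q
  have hR₁ : #R₁ ≤ c := mk_union_le hc' hc₁.2.2 ((mk_iUnion_le _).trans
    ((mul_le_mul' hpairs (ciSup_le' fun q => (hR q).trans hc)).trans (mul_eq_self hc').le))
  obtain ⟨X, hX⟩ : ∃ X, X ∉ R₁ := by
    by_contra! hall
    exact (hR₁.trans_lt hJ).ne (by rw [eq_univ_of_forall hall, mk_univ])
  let b : I → V := f X
  let satB : Ξ → Set I := fun x => sat dB x.2.1 (Sum.elim (fun j => (x.2.2 j).1.2) fun _ => b)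
  let D₂ := S₁.2.1 ∪ satB '' {x | Holds S₁.2.1 (satA x)}
  -- finitely many chosen sets contain the one of a conjunction
  have hconj : ∀ s : Finset {x // Holds S₁.2.1 (satA x)},
      ∃ y, Holds S₁.2.1 (satA y) ∧ ∀ x ∈ s, satB y ⊆ satB x.1 := by
    intro s
    let β := Σ x : s, Fin x.1.1.1
    let e := Fintype.equivFin β
    let φ : L.Formula (Fin (Fintype.card β) ⊕ Unit) :=
      Formula.iInf fun x : s => x.1.1.2.1.relabel (Sum.map (fun j => e ⟨x, j⟩) id)
    let q : Fin (Fintype.card β) → ↥S.1 := fun k => (e.symm k).1.1.1.2.2 (e.symm k).2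
    have hq : ∀ (x : s) j, q (e ⟨x, j⟩) = x.1.1.2.2 j := fun x j => by
      simp only [q]
      rw [Equiv.symm_apply_apply]
    refine ⟨⟨Fintype.card β, φ, q⟩, ?_, fun x hx => ?_⟩
    · simp only [satA, φ, sat_iInf, sat_relabel]
      refine holds_iInter fun x => x.1.2.mono subset_rfl ?_
      refine subset_of_eq (congrArg _ (funext fun y => ?_))
      rcases y with j | j <;> simp [hq]
    · simp only [satB, φ, sat_iInf, sat_relabel]
      refine (iInter_subset _ ⟨x, hx⟩).trans (subset_of_eq (congrArg _ (funext fun y => ?_)))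
      rcases y with j | j <;> simp [hq]
  have hcons : Consistent f κ (insert X R₁) D₂ := by
    intro F hF hFf T hT hdis h
    rw [disjoint_insert_right] at hdis
    choose x hx hxY using fun Y : (F \ S₁.2.1 : Set (Set I)) => (hF Y.2.1).resolve_left Y.2.2
    have : Fintype (F \ S₁.2.1 : Set (Set I)) := hFf.sdiff.fintype
    obtain ⟨y, hyA, hyB⟩ := hconj (Finset.univ.image fun Y => ⟨x Y, hx Y⟩)
    have hex : Holds S₁.2.1 {i | ∃ z : B, y.2.1.Realize
        (Sum.elim (fun j => dB ((y.2.2 j).1.2 i)) fun _ => z)} := by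
      rcases hg₁.2 y.1 (y.2.1.iExs Unit) (fun j => (y.2.2 j).1)
        (fun j => hP₁.symm ▸ (y.2.2 j).2) with ⟨-, h⟩ | ⟨h, -⟩
      · refine h.mono subset_rfl fun i hi => ?_
        obtain ⟨z, hz⟩ := Formula.realize_iExs.1 hi
        exact ⟨z (), hz⟩
      · refine absurd (h.mono subset_rfl (compl_subset_compl.2 fun i hi => ?_))
          (hg₁.1.not_holds_compl hyA)
        refine Formula.realize_iExs.2 ⟨fun _ => dA (a i), ?_⟩
        convert (show y.2.1.Realize _ from hi) using 2
        rename_i z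
        rcases z with j | j <;> rfl
    obtain ⟨F', hF', hF'f, hsub⟩ := hex
    let s₀ : Set ↥S₁.2.1 := {Y | Y.1 ∈ F ∪ F'}
    have hs₀ : s₀.Finite := (hFf.union hF'f).preimage Subtype.val_injective.injOn
    have hXT : X ∉ T := hdis.1
    have hdis₁ : Disjoint (insert X T) R₁ := disjoint_insert_left.2 ⟨hX, hdis.2⟩
    obtain ⟨i, hi, hiT, hiX⟩ := hmeet (y, hs₀.toFinset) T X hT hXT
      (hdis₁.mono_right subset_union_left)
      (hdis₁.mono_right ((subset_iUnion R (y, hs₀.toFinset)).trans subset_union_right)) h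
    simp only [Set.Finite.coe_toFinset, mem_sInter, mem_image, Subtype.exists, exists_and_right,
      exists_eq_right, s₀, mem_ofPred_eq] at hi
    have hiy : i ∈ satB y := by
      obtain ⟨z, hz⟩ := hsub (mem_sInter.2 fun Y hY => hi Y ⟨hF' hY, .inr hY⟩)
      obtain ⟨v, rfl⟩ := hdB z
      have hv : ∃ v : V,
          y.2.1.Realize (Sum.elim (fun j => dB ((y.2.2 j).1.2 i)) fun _ => dB v) := ⟨v, hz⟩
      have hgi : g y i = hv.choose := dif_pos hv
      have := hv.choose_spec
      rw [← hgi, ← hiX] at this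
      simp only [satB, sat, mem_ofPred_eq]
      convert this using 2
      rename_i z
      rcases z with j | j <;> rfl
    refine ⟨i, mem_sInter.2 fun Y hY => ?_, hiT⟩
    by_cases hYD : Y ∈ S₁.2.1
    · exact hi Y ⟨hYD, .inl hY⟩
    · have := hyB ⟨x ⟨Y, hY, hYD⟩, hx _⟩ (Finset.mem_image_of_mem _ (Finset.mem_univ _)) hiy
      rwa [show satB (x ⟨Y, hY, hYD⟩) = Y from hxY ⟨Y, hY, hYD⟩] at this
  have hD : S₁.2.1 ⊆ D₂ := subset_union_left
  have hagree : Agree L dA dB (insert (a, b) S.1) D₂ := by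
    intro n φ p hp
    let O : Set (Fin n) := {j | p j ∈ S.1}
    let e := Fintype.equivFin ↥O
    let ρ : Fin n → Fin (Fintype.card ↥O) ⊕ Unit := fun j =>
      if h : j ∈ O then .inl (e ⟨j, h⟩) else .inr ()
    let x : Ξ := ⟨_, φ.relabel ρ, fun k => ⟨p (e.symm k).1, (e.symm k).2⟩⟩
    have hvA : satA x = sat dA φ fun j => (p j).1 := by
      simp only [satA, x, sat_relabel]
      refine congrArg _ (funext fun j => ?_)
      by_cases h : j ∈ O
      · simp [ρ, h]
      · simp [ρ, h, ((mem_insert_iff.1 (hp j)).resolve_right h)]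
    have hvB : satB x = sat dB φ fun j => (p j).2 := by
      simp only [satB, x, sat_relabel]
      refine congrArg _ (funext fun j => ?_)
      by_cases h : j ∈ O
      · simp [ρ, h]
      · simp [ρ, h, ((mem_insert_iff.1 (hp j)).resolve_right h)]
    rw [← hvA, ← hvB]
    rcases hdec x with h | h
    · exact .inl ⟨h.mono hD subset_rfl, holds_of_mem (.inr ⟨x, h, rfl⟩)⟩
    · let x' : Ξ := ⟨x.1, x.2.1.not, x.2.2⟩
      have h' : Holds S₁.2.1 (satA x') := by
        simp only [satA, x', sat_not]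
        exact h
      refine .inr ⟨h.mono hD subset_rfl, ?_⟩
      have hm : satB x' ∈ D₂ := .inr ⟨x', h', rfl⟩
      simp only [satB, x', sat_not] at hm
      exact holds_of_mem hm
  have hone : ∀ {Z : Type (max u v w)} {T : Set Z} (z : Z), #T ≤ c → #↥(insert z T) ≤ c :=
    fun {Z T} z hT => Cardinal.mk_insert_le.trans
      ((add_le_add hT (one_lt_aleph0.le.trans hc')).trans (add_eq_self hc').le)
  exact ⟨(insert (a, b) S.1, D₂, insert X R₁),
    ⟨subset_insert _ _, hle₁.2.1.trans hD,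
      hle₁.2.2.trans (subset_union_left.trans (subset_insert _ _))⟩,
    ⟨hcons, hagree⟩,
    ⟨hone _ hSc.1, mk_union_le hc' hc₁.2.1
      (mk_image_le.trans ((mk_set_le _).trans hΞ)), hone _ hR₁⟩,
    b, mem_insert _ _⟩

end FA.KeislerShelah
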