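import Mathlib.Order.Zorn
import Mathlib.SetTheory.Cardinal.Arithmetic
import Mathlib.Data.Set.Lattice
import Mathlib.Data.Set.Finite.Lattice

/-!
# Large families of functions

Shelah's families: functions on an index set, any few of which take any prescribed values on a
set which is positive for the current filter base.  A few deletions make such a family meet any
given function as well, and decide any given set.
-/

set_option autoImplicit false

universe u

namespace FA.KeislerShelah

open Set Cardinal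

variable {J I V : Type u}

/-- Finitely many sets of the base have their intersection inside `A`. -/
def Holds (D : Set (Set I)) (A : Set I) : Prop :=
  ∃ S ⊆ D, S.Finite ∧ ⋂₀ S ⊆ A

theorem Holds.mono {D D' : Set (Set I)} {A A' : Set I} (h : Holds D A) (hD : D ⊆ D')
    (hA : A ⊆ A') : Holds D' A' := by
  obtain ⟨S, hS, hf, h⟩ := h
  exact ⟨S, hS.trans hD, hf, h.trans hA⟩

theorem holds_univ (D : Set (Set I)) : Holds D univ :=
  ⟨∅, empty_subset _, finite_empty, subset_univ _⟩

theorem holds_of_mem {D : Set (Set I)} {A : Set I} (h : A ∈ D) : Holds D A :=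
  ⟨{A}, singleton_subset_iff.2 h, finite_singleton A, by simp⟩

theorem Holds.inter {D : Set (Set I)} {A A' : Set I} (h : Holds D A) (h' : Holds D A') :
    Holds D (A ∩ A') := by
  obtain ⟨S, hS, hf, h⟩ := h
  obtain ⟨S', hS', hf', h'⟩ := h'
  exact ⟨S ∪ S', union_subset hS hS', hf.union hf',
    subset_inter ((sInter_subset_sInter subset_union_left).trans h)
      ((sInter_subset_sInter subset_union_right).trans h')⟩

theorem holds_iInter {D : Set (Set I)} {ι : Type*} [Finite ι] {A : ι → Set I}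
    (h : ∀ x, Holds D (A x)) : Holds D (⋂ x, A x) := by
  choose S hS hf hA using h
  exact ⟨⋃ x, S x, iUnion_subset hS, finite_iUnion hf, subset_iInter fun x =>
    (sInter_subset_sInter (subset_iUnion S x)).trans (hA x)⟩

/-- The functions outside `R` take any values, `κ` at a time, inside every member of the filter
generated by `D`. -/
def Consistent (f : J → I → V) (κ : Cardinal.{u}) (R : Set J) (D : Set (Set I)) : Prop :=
  ∀ S ⊆ D, S.Finite → ∀ T : Set J, #T ≤ κ → Disjoint T R → ∀ h : J → V,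
    ∃ i ∈ ⋂₀ S, ∀ X ∈ T, f X i = h X

variable {f : J → I → V} {κ : Cardinal.{u}} {R : Set J} {D : Set (Set I)}

theorem Consistent.nonempty_of_holds [Nonempty V] (hc : Consistent f κ R D) {A : Set I}
    (h : Holds D A) : A.Nonempty := by
  obtain ⟨S, hS, hf, hA⟩ := h
  obtain ⟨i, hi, -⟩ := hc S hS hf ∅ (by simp) (Set.disjoint_left.2 fun _ h => h.elim)
    fun _ => Classical.arbitrary V
  exact ⟨i, hA hi⟩

theorem Consistent.not_holds_compl [Nonempty V] (hc : Consistent f κ R D) {A : Set I}
    (h : Holds D A) : ¬Holds D Aᶜ := fun h' => by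
  obtain ⟨i, hi⟩ := hc.nonempty_of_holds (h.inter h')
  exact hi.2 hi.1

/-- Conditions on disjoint sets of functions combine. -/
theorem mk_union_le {κ : Cardinal.{u}} (hκ : ℵ₀ ≤ κ) {A B : Set J} (hA : #A ≤ κ) (hB : #B ≤ κ) :
    #(A ∪ B : Set J) ≤ κ :=
  (Cardinal.mk_union_le A B).trans ((add_le_add hA hB).trans (add_eq_self hκ).le)

/-- **Meeting a function.** After deleting few functions, one more function can be required to
agree with a given `g`. -/
theorem exists_meet [Nonempty V] (hκ : ℵ₀ ≤ κ) (hV : #V ≤ κ) (hc : Consistent f κ R D)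
    (g : I → V) {S : Set (Set I)} (hS : S ⊆ D) (hSf : S.Finite) :
    ∃ R' : Set J, #R' ≤ κ ∧ ∀ (T : Set J) (X : J), #T ≤ κ → X ∉ T → Disjoint (insert X T) R →
      Disjoint (insert X T) R' → ∀ h : J → V,
        ∃ i ∈ ⋂₀ S, (∀ Y ∈ T, f Y i = h Y) ∧ f X i = g i := by
  classical
  let Bad : Set (Set J × J) := {p | #p.1 ≤ κ ∧ p.2 ∉ p.1 ∧ Disjoint (insert p.2 p.1) R ∧
    ∃ h : J → V, ∀ i ∈ ⋂₀ S, (∀ Y ∈ p.1, f Y i = h Y) → f p.2 i ≠ g i}
  let dom : Set J × J → Set J := fun p => insert p.2 p.1
  obtain ⟨F, hF⟩ : ∃ F, Maximal (fun F => F ⊆ Bad ∧ F.PairwiseDisjoint dom) F := by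
    refine zorn_subset {F | F ⊆ Bad ∧ F.PairwiseDisjoint dom} fun c hc hchain => ?_
    refine ⟨⋃₀ c, ⟨sUnion_subset fun F hF => (hc hF).1, ?_⟩, fun F hF => subset_sUnion_of_mem hF⟩
    exact (pairwiseDisjoint_sUnion hchain.directedOn).2 fun F hF => (hc hF).2
  obtain ⟨⟨hFBad, hFdis⟩, hmax⟩ := hF
  -- there are fewer members than values
  have hsmall : #F ≤ κ := by
    refine le_of_not_gt fun hlt => ?_
    obtain ⟨e⟩ := Cardinal.le_def _ _ |>.1 (hV.trans hlt.le)
    choose h hh using fun v => (hFBad (e v).2).2.2.2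
    have huniq : ∀ v v' Y, Y ∈ dom (e v).1 → Y ∈ dom (e v').1 → v = v' := fun v v' Y hY hY' =>
      e.injective (Subtype.ext (hFdis.elim_set (e v).2 (e v').2 Y hY hY'))
    let comb : J → V := fun Y =>
      if hY : ∃ v, Y ∈ dom (e v).1 then
        if Y = (e hY.choose).1.2 then hY.choose else h hY.choose Y
      else Classical.arbitrary V
    have hcomb : ∀ v Y, Y ∈ dom (e v).1 →
        comb Y = if Y = (e v).1.2 then v else h v Y := fun v Y hY => by
      have hex : ∃ v, Y ∈ dom (e v).1 := ⟨v, hY⟩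
      simp only [comb, dif_pos hex, huniq _ v Y hex.choose_spec hY]
    obtain ⟨i, hiS, hi⟩ := hc S hS hSf (⋃ v, dom (e v).1) (by
      refine (mk_iUnion_le _).trans ((mul_le_mul' hV (ciSup_le' fun v => ?_)).trans
        (mul_eq_self hκ).le)
      exact (Cardinal.mk_insert_le).trans ((add_le_add (hFBad (e v).2).1
        ((one_lt_aleph0.le).trans hκ)).trans (add_eq_self hκ).le))
      (disjoint_iUnion_left.2 fun v => (hFBad (e v).2).2.2.1) comb
    refine hh (g i) i hiS (fun Y hY => ?_) ?_
    · rw [hi Y (mem_iUnion.2 ⟨g i, mem_insert_of_mem _ hY⟩),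
        hcomb (g i) Y (mem_insert_of_mem _ hY), if_neg]
      exact fun he => (hFBad (e (g i)).2).2.1 (he ▸ hY)
    · rw [hi _ (mem_iUnion.2 ⟨g i, mem_insert _ _⟩), hcomb (g i) _ (mem_insert _ _), if_pos rfl]
  refine ⟨⋃ p : F, dom p.1, ?_, fun T X hT hXT hR hR' h => ?_⟩
  · refine (mk_iUnion_le _).trans ((mul_le_mul' hsmall (ciSup_le' fun p => ?_)).trans
      (mul_eq_self hκ).le)
    exact (Cardinal.mk_insert_le).trans ((add_le_add (hFBad p.2).1
      ((one_lt_aleph0.le).trans hκ)).trans (add_eq_self hκ).le)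
  by_contra hno
  push Not at hno
  have hp : (T, X) ∈ Bad := ⟨hT, hXT, hR, h, hno⟩
  have hnew : (T, X) ∉ F := fun hm => Set.disjoint_left.1 hR' (mem_insert X T)
    (mem_iUnion.2 ⟨⟨_, hm⟩, mem_insert X T⟩)
  refine hnew (hmax (y := insert (T, X) F) ⟨insert_subset hp hFBad,
    hFdis.insert fun q hq _ => ?_⟩ (subset_insert _ _) (mem_insert _ _))
  exact hR'.mono_right (subset_iUnion (fun p : F => dom p.1) ⟨q, hq⟩)

/-- **Deciding a set.** After deleting few functions a given set or its complement can be added. -/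
theorem exists_decide (hκ : ℵ₀ ≤ κ) (hc : Consistent f κ R D) (A : Set I) :
    ∃ R' : Set J, #R' ≤ κ ∧
      (Consistent f κ (R ∪ R') (insert A D) ∨ Consistent f κ (R ∪ R') (insert Aᶜ D)) := by
  classical
  by_cases hA : Consistent f κ (R ∪ ∅) (insert A D)
  · exact ⟨∅, by simp, .inl hA⟩
  simp only [Consistent, union_empty, not_forall, not_exists] at hA
  obtain ⟨S, hS, hSf, T, hT, hTR, h, hbad⟩ := hA
  refine ⟨T, hT, .inr fun S' hS' hSf' T' hT' hdis h' => ?_⟩
  have hdis' := disjoint_union_right.1 hdis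
  obtain ⟨i, hi, hiT⟩ := hc ((S \ {A}) ∪ (S' \ {Aᶜ})) (union_subset
      (fun X hX => (hS hX.1).resolve_left hX.2) fun X hX => (hS' hX.1).resolve_left hX.2)
    ((hSf.sdiff).union hSf'.sdiff) (T ∪ T') (mk_union_le hκ hT hT')
    (disjoint_union_left.2 ⟨hTR, hdis'.1⟩) fun Y => if Y ∈ T then h Y else h' Y
  have hiA : i ∉ A := fun hiA => hbad i ⟨fun X hX => by
      by_cases hXA : X = A
      exacts [hXA ▸ hiA, hi X (.inl ⟨hX, hXA⟩)],
    fun Y hY => (hiT Y (.inl hY)).trans (if_pos hY)⟩
  refine ⟨i, fun X hX => ?_, fun Y hY => ?_⟩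
  · by_cases hXA : X = Aᶜ
    exacts [hXA ▸ hiA, hi X (.inr ⟨hX, hXA⟩)]
  · exact (hiT Y (.inr hY)).trans (if_neg fun h => Set.disjoint_left.1 hdis'.2 hY h)

/-- **Independent functions.** Subsets of `A` index functions any `#K` of which take arbitrary
values simultaneously. -/
theorem consistent_trace {A K : Type u} [Nonempty A] [Nonempty V] [Infinite K] :
    Consistent (fun (X : Set A) (i : (K → A) × ((K → Prop) → V)) => i.2 fun k => i.1 k ∈ X)
      #K ∅ ∅ := by
  classical
  intro S hS _ T hT _ h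
  obtain ⟨e⟩ : Nonempty (↥T × ↥T ↪ K) := by
    rw [← Cardinal.le_def, ← mul_def]
    exact (mul_le_mul' hT hT).trans (mul_eq_self (aleph0_le_mk K)).le
  let pick : ↥T × ↥T → A := fun q =>
    if hq : ∃ a, ¬(a ∈ q.1.1 ↔ a ∈ q.2.1) then hq.choose else Classical.arbitrary A
  let p : K → A := Function.extend e pick fun _ => Classical.arbitrary A
  have hp : ∀ q, p (e q) = pick q := fun q => e.injective.extend_apply _ _ _
  let trace : ↥T → K → Prop := fun X k => p k ∈ X.1
  have hinj : Function.Injective trace := fun X Y he => by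
    by_contra hne
    have hex : ∃ a, ¬(a ∈ X.1 ↔ a ∈ Y.1) := by
      by_contra! hall
      exact hne (Subtype.ext (Set.ext hall))
    have hk := congrFun he (e (X, Y))
    simp only [trace, hp, pick, dif_pos hex, eq_iff_iff] at hk
    exact hex.choose_spec hk
  refine ⟨(p, Function.extend trace (fun X => h X.1) fun _ => Classical.arbitrary V), ?_,
    fun X hX => hinj.extend_apply (fun X => h X.1) (fun _ => Classical.arbitrary V) ⟨X, hX⟩⟩
  rw [subset_empty_iff.1 hS]
  simp

end FA.KeislerShelah
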