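import Fermat.Agent.KeislerShelah.Families

/-!
# Iterating small extensions

A state consists of three growing sets.  Steps which enlarge states by little can be iterated
along any well-order.
-/

set_option autoImplicit false

universe u

namespace FA.KeislerShelah

open Set Cardinal

variable {A B C : Type u}

/-- Each component has size at most `c`. -/
def SizeLE (S : Set A × Set B × Set C) (c : Cardinal.{u}) : Prop :=
  #S.1 ≤ c ∧ #S.2.1 ≤ c ∧ #S.2.2 ≤ c

theorem SizeLE.mono {S : Set A × Set B × Set C} {c d : Cardinal.{u}} (h : SizeLE S c)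
    (hcd : c ≤ d) : SizeLE S d :=
  ⟨h.1.trans hcd, h.2.1.trans hcd, h.2.2.trans hcd⟩

/-- The union of a family of states. -/
def unionState {ι : Type*} (S : ι → Set A × Set B × Set C) : Set A × Set B × Set C :=
  (⋃ x, (S x).1, ⋃ x, (S x).2.1, ⋃ x, (S x).2.2)

theorem le_unionState {ι : Type*} (S : ι → Set A × Set B × Set C) (x : ι) :
    S x ≤ unionState S :=
  ⟨subset_iUnion (fun x => (S x).1) x, subset_iUnion (fun x => (S x).2.1) x,
    subset_iUnion (fun x => (S x).2.2) x⟩

theorem sizeLE_unionState {ι : Type u} {S : ι → Set A × Set B × Set C} {c : Cardinal.{u}}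
    (hc : ℵ₀ ≤ c) (hι : #ι ≤ c) (h : ∀ x, SizeLE (S x) c) : SizeLE (unionState S) c :=
  ⟨(mk_iUnion_le _).trans
      ((mul_le_mul' hι (ciSup_le' fun x => (h x).1)).trans (mul_eq_self hc).le),
    (mk_iUnion_le _).trans
      ((mul_le_mul' hι (ciSup_le' fun x => (h x).2.1)).trans (mul_eq_self hc).le),
    (mk_iUnion_le _).trans
      ((mul_le_mul' hι (ciSup_le' fun x => (h x).2.2)).trans (mul_eq_self hc).le)⟩

/-- **Iteration.** -/
theorem exists_iterate {Good : Set A × Set B × Set C → Prop}
    (hunion : ∀ (ι : Type u) [Nonempty ι] (S : ι → Set A × Set B × Set C),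
      Directed (· ≤ ·) S → (∀ x, Good (S x)) → Good (unionState S))
    {J : Type u} [LinearOrder J] [WellFoundedLT J] {c : Cardinal.{u}} (hc : ℵ₀ ≤ c)
    (Done : J → Set A × Set B × Set C → Prop) (hdone : ∀ j S S', S ≤ S' → Done j S → Done j S')
    {S₀ : Set A × Set B × Set C} (h₀ : Good S₀) (h₀c : SizeLE S₀ c)
    (step : ∀ j S, Good S → SizeLE S (max c #(Iio j)) →
      ∃ S', S ≤ S' ∧ Good S' ∧ SizeLE S' (max c #(Iio j)) ∧ Done j S') :
    ∃ S, S₀ ≤ S ∧ Good S ∧ SizeLE S (max c #J) ∧ ∀ j, Done j S := by
  classical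
  let pre : ∀ j : J, (∀ x : J, x < j → Set A × Set B × Set C) → Set A × Set B × Set C :=
    fun j σ => unionState fun x : Option (Iio j) => x.elim S₀ fun x => σ x.1 x.2
  let nxt : J → Set A × Set B × Set C → Set A × Set B × Set C := fun j S =>
    if h : Good S ∧ SizeLE S (max c #(Iio j)) then (step j S h.1 h.2).choose else S
  let σ : J → Set A × Set B × Set C := wellFounded_lt.fix fun j rec => nxt j (pre j rec)
  have hσ : ∀ j, σ j = nxt j (pre j fun x _ => σ x) := fun j =>
    wellFounded_lt.fix_eq (fun j rec => nxt j (pre j rec)) j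
  have hnxt : ∀ j S, S ≤ nxt j S := fun j S => by
    simp only [nxt]
    split_ifs with h
    exacts [(step j S h.1 h.2).choose_spec.1, le_rfl]
  have h₀σ : ∀ j, S₀ ≤ σ j := fun j => by
    rw [hσ]
    exact (le_unionState (fun x : Option (Iio j) => x.elim S₀ fun x => σ x.1) none).trans
      (hnxt j _)
  have hmono : ∀ i j, i < j → σ i ≤ σ j := fun i j hij => by
    rw [hσ j]
    exact (le_unionState (fun x : Option (Iio j) => x.elim S₀ fun x => σ x.1)
      (some ⟨i, hij⟩)).trans (hnxt j _)
  have hdir : ∀ (P : J → Prop), Directed (· ≤ ·)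
      fun x : Option {j // P j} => x.elim S₀ fun x => σ x.1 := fun P => by
    rintro (_ | x) (_ | y)
    · exact ⟨none, le_rfl, le_rfl⟩
    · exact ⟨some y, h₀σ _, le_rfl⟩
    · exact ⟨some x, le_rfl, h₀σ _⟩
    · rcases lt_trichotomy x.1 y.1 with h | h | h
      · exact ⟨some y, hmono _ _ h, le_rfl⟩
      · exact ⟨some x, le_rfl, (show σ y.1 ≤ σ x.1 by rw [h])⟩
      · exact ⟨some x, le_rfl, hmono _ _ h⟩
  have hmain : ∀ j, Good (σ j) ∧ SizeLE (σ j) (max c #(Iio j)) ∧ Done j (σ j) := by
    intro j
    induction j using WellFoundedLT.induction with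
    | ind j ih =>
      have hle : ℵ₀ ≤ max c #(Iio j) := hc.trans (le_max_left _ _)
      have hg : Good (pre j fun x _ => σ x) := hunion (Option (Iio j)) _ (hdir (· < j)) fun x => by
        cases x with
        | none => exact h₀
        | some x => exact (ih x.1 x.2).1
      have hs : SizeLE (pre j fun x _ => σ x) (max c #(Iio j)) := by
        refine sizeLE_unionState hle ?_ fun x => ?_
        · rw [mk_option]
          exact (add_le_add (le_max_right c _) (one_lt_aleph0.le.trans hle)).trans
            (add_eq_self hle).le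
        cases x with
        | none => exact h₀c.mono (le_max_left _ _)
        | some x =>
          exact (ih x.1 x.2).2.1.mono
            (max_le_max le_rfl (mk_le_mk_of_subset (Iio_subset_Iio (le_of_lt x.2))))
      rw [hσ]
      simp only [nxt, dif_pos (And.intro hg hs)]
      exact (step j _ hg hs).choose_spec.2
  let T : Option {_j : J // True} → Set A × Set B × Set C := fun x => x.elim S₀ fun x => σ x.1
  refine ⟨unionState T, le_unionState T none, hunion _ T (hdir fun _ => True) fun x => ?_, ?_,
    fun j => hdone j (σ j) _ (le_unionState T (some ⟨j, trivial⟩)) (hmain j).2.2⟩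
  · cases x
    exacts [h₀, (hmain _).1]
  · have hle : ℵ₀ ≤ max c #J := hc.trans (le_max_left _ _)
    refine sizeLE_unionState hle ?_ fun x => ?_
    · rw [mk_option]
      exact (add_le_add ((mk_subtype_le _).trans (le_max_right c _))
        (one_lt_aleph0.le.trans hle)).trans (add_eq_self hle).le
    cases x with
    | none => exact h₀c.mono (le_max_left _ _)
    | some x => exact (hmain x.1).2.1.mono (max_le_max le_rfl (mk_set_le _))

end FA.KeislerShelah
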