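import Fermat.Agent.KeislerShelah.Construction
import Mathlib.ModelTheory.Ultraproducts
import Mathlib.SetTheory.Cardinal.Aleph

/-!
# The isomorphism theorem

All elements of the powers and all subsets of the index set are handled along an initial
well-order, of the length of the family of functions.
-/

set_option autoImplicit false

universe u v w z

namespace FA.KeislerShelah

open Set Cardinal FirstOrder FirstOrder.Language Filter

variable {L : Language.{u, v}} {M N : Type w} [L.Structure M] [L.Structure N]

/-- A map preserving all formulas onto the other structure is an isomorphism. -/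
theorem nonempty_equiv_of_preserves {A : Type*} {B : Type*} [L.Structure A] [L.Structure B]
    (F : A → B) (hs : Function.Surjective F)
    (h : ∀ (n : ℕ) (φ : L.Formula (Fin n)) (x : Fin n → A), φ.Realize x ↔ φ.Realize (F ∘ x)) :
    Nonempty (A ≃[L] B) := by
  have hi : Function.Injective F := fun a a' he => by
    have h2 := h 2 (Term.equal (var 0) (var 1)) ![a, a']
    simp only [Formula.realize_equal, Term.realize_var, Function.comp_apply, Matrix.cons_val_zero,
      Matrix.cons_val_one] at h2
    exact h2.2 he
  refine ⟨{ Equiv.ofBijective F ⟨hi, hs⟩ with map_fun' := ?_, map_rel' := ?_ }⟩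
  · intro n g x
    have h2 := h _ (Formula.graph g) (Fin.cons (Structure.funMap g x) x)
    rw [Fin.comp_cons, Formula.realize_graph, Formula.realize_graph] at h2
    exact (h2.1 rfl).symm
  · intro n r x
    have h2 := h _ (r.formula var) x
    simp only [Formula.realize_rel, Term.realize_var] at h2
    exact h2.symm

/-- The filter generated by a base. -/
def baseFilter {I : Type z} (D : Set (Set I)) : Filter I where
  sets := {X | Holds D X}
  univ_sets := holds_univ D
  sets_of_superset h hsub := h.mono subset_rfl hsub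
  inter_sets := Holds.inter

/-- A decided consistent state gives the isomorphism. -/
theorem exists_equiv_of_state {J I V : Type z} [Nonempty V] [Nonempty M] [Nonempty N]
    {f : J → I → V} {κ : Cardinal.{z}} {dA : V → M} {dB : V → N}
    (hA : Function.Surjective dA) (hB : Function.Surjective dB) {S : State J I V}
    (hS : Good L f κ dA dB S) (hfwd : ∀ a, ∃ b, (a, b) ∈ S.1) (hbwd : ∀ b, ∃ a, (a, b) ∈ S.1)
    (hdec : ∀ X : Set I, Holds S.2.1 X ∨ Holds S.2.1 Xᶜ) :
    ∃ U : Ultrafilter I,
      Nonempty ((U : Filter I).Product (fun _ => M) ≃[L] (U : Filter I).Product fun _ => N) := by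
  let U : Ultrafilter I := Ultrafilter.ofComplNotMemIff (baseFilter S.2.1) fun X =>
    ⟨fun h => (hdec X).resolve_right h, hS.1.not_holds_compl⟩
  have hmem : ∀ X : Set I, X ∈ (U : Filter I) ↔ Holds S.2.1 X := fun X => Iff.rfl
  have hkey : ∀ (n : ℕ) (φ : L.Formula (Fin n)) (p : Fin n → (I → V) × (I → V)),
      (∀ j, p j ∈ S.1) → ((∀ᶠ i in (U : Filter I), φ.Realize fun j => dA ((p j).1 i)) ↔
        ∀ᶠ i in (U : Filter I), φ.Realize fun j => dB ((p j).2 i)) := by
    intro n φ p hp
    rw [Filter.eventually_iff, Filter.eventually_iff, hmem, hmem]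
    rcases hS.2 n φ p hp with h | h
    · exact iff_of_true h.1 h.2
    · exact iff_of_false (fun h' => hS.1.not_holds_compl h' h.1)
        fun h' => hS.1.not_holds_compl h' h.2
  choose s hs using hA
  choose t ht using hB
  choose fwd hf using fun a : I → M => hfwd (s ∘ a)
  choose bwd hb using fun b : I → N => hbwd (t ∘ b)
  have hwd : ∀ a a' : I → M, (∀ᶠ i in (U : Filter I), a i = a' i) →
      ∀ᶠ i in (U : Filter I), dB (fwd a i) = dB (fwd a' i) := by
    intro a a' he
    have h := hkey 2 (Term.equal (var 0) (var 1)) ![(s ∘ a, fwd a), (s ∘ a', fwd a')]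
      (Fin.forall_fin_two.2 ⟨hf a, hf a'⟩)
    simp [Formula.realize_equal, hs] at h
    exact h.1 he
  refine ⟨U, nonempty_equiv_of_preserves (Quotient.map' (fun a i => dB (fwd a i)) hwd) ?_ ?_⟩
  · intro q
    induction q using Quotient.inductionOn' with
    | h b =>
      refine ⟨Quotient.mk'' fun i => dA (bwd b i), Quotient.sound' ?_⟩
      have h := hkey 2 (Term.equal (var 0) (var 1))
        ![(s ∘ fun i => dA (bwd b i), fwd fun i => dA (bwd b i)), (bwd b, t ∘ b)]
        (Fin.forall_fin_two.2 ⟨hf _, hb b⟩)
      simp [Formula.realize_equal, hs, ht] at h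
      exact h
  · intro n φ x
    choose a ha using fun j => Quotient.exists_rep (x j)
    obtain rfl : (fun j => (Quotient.mk _ (a j) : (U : Filter I).Product fun _ => M)) = x :=
      funext ha
    have h := hkey n φ (fun j => (s ∘ a j, fwd (a j))) fun j => hf (a j)
    simp only [Function.comp_apply, hs] at h
    exact (Ultraproduct.realize_formula_cast (M := fun _ => M) φ a).trans
      (h.trans (Ultraproduct.realize_formula_cast (M := fun _ => N) φ
        fun j i => dB (fwd (a j) i)).symm)

/-- **Keisler and Shelah.** Elementarily equivalent structures have isomorphic ultrapowers. -/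
theorem exists_ultrapower_equiv [Nonempty M] [Nonempty N]
    (h : ∀ φ : L.Sentence, M ⊨ φ ↔ N ⊨ φ) :
    ∃ (I : Type (max u v w)) (U : Ultrafilter I),
      Nonempty ((U : Filter I).Product (fun _ => M) ≃[L] (U : Filter I).Product fun _ => N) := by
  classical
  let V : Type (max u v w) := ULift.{max u v} (M ⊕ N)
  let K : Type (max u v w) := V ⊕ ULift.{max u v w} ℕ
  let A : Type (max u v w) := Set K ⊕ ULift.{w} L.Symbols
  let I : Type (max u v w) := (K → Set A) × ((K → Prop) → V)
  let J : Type (max u v w) := Set (Set A)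
  let f : J → I → V := fun X i => i.2 fun k => i.1 k ∈ X
  let dA : V → M := fun x => x.down.elim id fun _ => Classical.arbitrary M
  let dB : V → N := fun x => x.down.elim (fun _ => Classical.arbitrary N) id
  have hA : Function.Surjective dA := fun m => ⟨⟨.inl m⟩, rfl⟩
  have hB : Function.Surjective dB := fun n => ⟨⟨.inr n⟩, rfl⟩
  have : Nonempty V := ⟨⟨.inl (Classical.arbitrary M)⟩⟩
  have hκ : ℵ₀ ≤ #K := aleph0_le_mk K
  have hV : #V ≤ #K := mk_le_of_injective Sum.inl_injective
  have hKA : #K ≤ #A := by
    refine le_trans ?_ (mk_le_of_injective Sum.inl_injective)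
    rw [mk_set]
    exact (cantor _).le
  have hAi : ℵ₀ ≤ #A := hκ.trans hKA
  have hAc : #A ≤ #(Set A) := by
    rw [mk_set]
    exact (cantor _).le
  have hI : #I ≤ #(Set A) := by
    have h₁ : #(K → Set A) ≤ #(Set A) := by
      rw [mk_arrow, lift_id, lift_id, mk_set, ← power_mul]
      exact power_le_power_left two_ne_zero ((mul_le_mul' le_rfl hKA).trans (mul_eq_self hAi).le)
    have h₂ : #((K → Prop) → V) ≤ #(Set A) := by
      have : #(K → Prop) ≤ #A := mk_le_of_injective (f := fun p => Sum.inl {k | p k})
        (fun p q he => funext fun k => propext (Set.ext_iff.1 (Sum.inl_injective he) k))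
      rw [mk_arrow, lift_id, lift_id]
      refine (power_le_power_right ((hV.trans hKA).trans hAc)).trans ?_
      rw [mk_set, ← power_mul]
      exact power_le_power_left two_ne_zero
        ((mul_le_mul' le_rfl this).trans (mul_eq_self hAi).le)
    rw [show #I = #(K → Set A) * #((K → Prop) → V) from (mul_def _ _).symm]
    exact (mul_le_mul' h₁ h₂).trans (mul_eq_self (hAi.trans hAc)).le
  have hJ : #(Set A) < #J := by
    rw [show #J = 2 ^ #(Set A) from mk_set]
    exact cantor _
  have hJi : ℵ₀ ≤ #J := (hAi.trans hAc).trans hJ.le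
  let Task : Type (max u v w) := (I → V) ⊕ (I → V) ⊕ Set I
  have hTask : #Task ≤ #J := by
    have h₁ : #(I → V) ≤ #J := by
      rw [mk_arrow, lift_id, lift_id]
      refine (power_le_power_right (((hV.trans hKA).trans hAc).trans hJ.le)).trans ?_
      rw [show #J = 2 ^ #(Set A) from mk_set, ← power_mul]
      exact power_le_power_left two_ne_zero
        ((mul_le_mul' le_rfl hI).trans (mul_eq_self (hAi.trans hAc)).le)
    have h₂ : #(Set I) ≤ #J := by
      rw [mk_set, show #J = 2 ^ #(Set A) from mk_set]
      exact power_le_power_left two_ne_zero hI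
    rw [show #Task = #(I → V) + (#(I → V) + #(Set I)) by simp [Task, mk_sum] ]
    exact (add_le_add h₁ ((add_le_add h₁ h₂).trans (add_eq_self hJi).le)).trans
      (add_eq_self hJi).le
  let O := (#J).ord.ToType
  obtain ⟨e⟩ : Nonempty (Task ↪ O) := by
    rw [← Cardinal.le_def]
    simpa [O] using hTask
  have : Nonempty Task := ⟨.inr (.inr ∅)⟩
  let task : O → Task := Function.invFun e
  have htask : Function.Surjective task := Function.invFun_surjective e.injective
  have hIio : ∀ j : O, #(Iio j) < #J := fun j => by
    simpa [O] using mk_Iio_lt j (by simp [O])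
  have hform : ∀ n, Cardinal.lift.{max u v w} #(L.Formula (Fin n ⊕ Unit)) ≤ #(Set A) := fun n => by
    have h1 : #(L.Formula (Fin n ⊕ Unit)) ≤ max ℵ₀
        (Cardinal.lift.{max u v} #(Fin n ⊕ Unit) + Cardinal.lift.{0} L.card) :=
      (mk_le_of_injective (f := fun φ => (⟨0, φ⟩ : Σ k, L.BoundedFormula (Fin n ⊕ Unit) k))
        sigma_mk_injective).trans BoundedFormula.card_le
    refine (lift_le.2 h1).trans ?_
    rw [lift_max, lift_aleph0, lift_add, lift_lift]
    refine max_le (hAi.trans hAc) (le_trans ?_ hAc)
    refine (add_le_add ?_ ?_).trans (add_eq_self hAi).le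
    · exact (lift_lt_aleph0.2 (lt_aleph0_of_finite _)).le.trans hAi
    · refine le_trans (le_of_eq ?_) (mk_le_of_injective (Sum.inr_injective (α := Set K)))
      rw [mk_uLift, lift_uzero, lift_umax.{max u v, w}]
      rfl
  let Done : O → State J I V → Prop := fun j S => match task j with
    | .inl a => ∃ b, (a, b) ∈ S.1
    | .inr (.inl b) => ∃ a, (a, b) ∈ S.1
    | .inr (.inr X) => Holds S.2.1 X ∨ Holds S.2.1 Xᶜ
  have hstart : Good L f #K dA dB (∅, ∅, ∅) := by
    refine ⟨consistent_trace, fun n φ p hp => ?_⟩
    cases n with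
    | succ n => exact (hp 0).elim
    | zero =>
      have hψ := h (φ.relabel Fin.elim0)
      simp only [Sentence.Realize, Formula.realize_relabel] at hψ
      have hx : φ.Realize (Fin.elim0 : Fin 0 → M) ↔ φ.Realize (Fin.elim0 : Fin 0 → N) := by
        convert hψ using 2
      have hA' : ∀ x : Fin 0 → M, φ.Realize x ↔ φ.Realize (Fin.elim0 : Fin 0 → M) := fun x => by
        rw [Subsingleton.elim x Fin.elim0]
      have hB' : ∀ x : Fin 0 → N, φ.Realize x ↔ φ.Realize (Fin.elim0 : Fin 0 → N) := fun x => by
        rw [Subsingleton.elim x Fin.elim0]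
      by_cases hM : φ.Realize (Fin.elim0 : Fin 0 → M)
      · exact .inl ⟨(holds_univ _).mono subset_rfl fun i _ => (hA' _).2 hM,
          (holds_univ _).mono subset_rfl fun i _ => (hB' _).2 (hx.1 hM)⟩
      · exact .inr ⟨(holds_univ _).mono subset_rfl fun i _ hi => hM ((hA' _).1 hi),
          (holds_univ _).mono subset_rfl fun i _ hi => hM (hx.2 ((hB' _).1 hi))⟩
  obtain ⟨S, -, hS, -, hdone⟩ := exists_iterate (Good := Good L f #K dA dB)
    (fun ι _ T hd hT => good_unionState ι T hd hT) (hAi.trans hAc) Done
    (fun j T T' hTT hT => by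
      simp only [Done] at hT ⊢
      revert hT
      rcases task j with a | b | X
      · exact fun hT => hT.imp fun b hb => hTT.1 hb
      · exact fun hT => hT.imp fun a ha => hTT.1 ha
      · exact fun hT => hT.imp (·.mono hTT.2.1 subset_rfl) (·.mono hTT.2.1 subset_rfl))
    hstart ⟨by simp, by simp, by simp⟩
    (fun j T hT hTc => by
      have hc : #K ≤ max #(Set A) #(Iio j) := (hKA.trans hAc).trans (le_max_left _ _)
      have hlt : max #(Set A) #(Iio j) < #J := max_lt hJ (hIio j)
      have hL := fun n => (hform n).trans (le_max_left _ #(Iio j))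
      simp only [Done]
      rcases task j with a | b | X
      · obtain ⟨T', h1, h2, h3, b, hb⟩ := exists_partner hκ hV hB hc hL hlt hT hTc a
        exact ⟨T', h1, h2, h3, b, hb⟩
      · obtain ⟨T', h1, h2, h3, a, ha⟩ := exists_partner hκ hV hA hc hL hlt hT.swap
          ⟨mk_image_le.trans hTc.1, hTc.2⟩ b
        refine ⟨(Prod.swap '' T'.1, T'.2),
          ⟨fun q hq => ⟨q.swap, h1.1 ⟨q, hq, rfl⟩, Prod.swap_swap q⟩, h1.2⟩, h2.swap,
          ⟨mk_image_le.trans h3.1, h3.2⟩, a, ⟨(b, a), ha, rfl⟩⟩
      · obtain ⟨T', h1, -, h2, h3, h4⟩ := exists_decide_state hκ hc hT hTc X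
        exact ⟨T', h1, h2, h3, h4⟩)
  refine ⟨I, exists_equiv_of_state hA hB hS (fun a => ?_) (fun b => ?_) fun X => ?_⟩
  · obtain ⟨j, hj⟩ := htask (.inl a)
    simpa [Done, hj] using hdone j
  · obtain ⟨j, hj⟩ := htask (.inr (.inl b))
    simpa [Done, hj] using hdone j
  · obtain ⟨j, hj⟩ := htask (.inr (.inr X))
    simpa [Done, hj] using hdone j

/-- Structures with isomorphic ultrapowers are elementarily equivalent. -/
theorem elementarilyEquivalent_of_equiv [Nonempty M] [Nonempty N] {I : Type z} (U : Ultrafilter I)
    (e : (U : Filter I).Product (fun _ => M) ≃[L] (U : Filter I).Product fun _ => N) :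
    M ≅[L] N := by
  rw [elementarilyEquivalent_iff]
  intro φ
  have h := StrongHomClass.realize_sentence e φ
  rw [Ultraproduct.sentence_realize, Ultraproduct.sentence_realize] at h
  simpa using h

end FA.KeislerShelah
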